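import Mathlib
import Fermat.Agent.J.JDeriv

/-!
# Orders of vanishing of `j - j(τ₀)` in the disc coordinate
-/

set_option autoImplicit false

noncomputable section

open Filter Topology UpperHalfPlane ModularForm EisensteinSeries MatrixGroups Derivative
open scoped Manifold ComplexConjugate

namespace FermatJ

/-- Uniqueness of local expansions. -/
theorem localPS_unique {τ₀ : ℍ} {f : ℍ → ℂ} {P : PowerSeries ℂ} (hf : MDiff f)
    (h : HasPS (wc τ₀) f P) : localPS τ₀ f = P :=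
  (hasPS_local τ₀ hf).unique (eventually_mem_range_wc τ₀) h

theorem order_eq_zero_of_coeff {P : PowerSeries ℂ} (h : P.coeff 0 ≠ 0) : P.order = 0 := by
  have := (PowerSeries.order_eq_nat (φ := P) (n := 0)).mpr ⟨h, fun i hi => by omega⟩
  simpa using this

theorem order_local_eq_zero {τ₀ : ℍ} {f : ℍ → ℂ} (hf : MDiff f) (h : f τ₀ ≠ 0) :
    (localPS τ₀ f).order = 0 := by
  apply order_eq_zero_of_coeff
  rwa [← (hasPS_local τ₀ hf).coeff_zero (wc_self τ₀)]

theorem one_le_order_local {τ₀ : ℍ} {f : ℍ → ℂ} (hf : MDiff f) (h : f τ₀ = 0) :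
    1 ≤ (localPS τ₀ f).order := by
  have := PowerSeries.nat_le_order (localPS τ₀ f) 1 fun i hi => by
    obtain rfl : i = 0 := by omega
    rwa [← (hasPS_local τ₀ hf).coeff_zero (wc_self τ₀)]
  exact_mod_cast this

theorem mdifferentiable_E₄ : MDiff (E₄ : ℍ → ℂ) := E₄.holo'

theorem mdifferentiable_E₆ : MDiff (E₆ : ℍ → ℂ) := E₆.holo'

theorem local_jf_mul (τ₀ : ℍ) :
    localPS τ₀ jf * localPS τ₀ discriminant = localPS τ₀ E₄ ^ 3 := by
  have h1 := (hasPS_local τ₀ mdifferentiable_jf).mul (hasPS_local τ₀ mdifferentiable_discriminant)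
  have h2 := (hasPS_local τ₀ mdifferentiable_E₄).pow 3
  exact (h1.congr fun τ => jf_mul_discriminant τ).unique (eventually_mem_range_wc τ₀) h2

theorem local_jf_sub_mul (τ₀ : ℍ) :
    (localPS τ₀ jf - PowerSeries.C 1728) * localPS τ₀ discriminant = localPS τ₀ E₆ ^ 2 := by
  have h1 := ((hasPS_local τ₀ mdifferentiable_jf).add (HasPS.C (wc τ₀) 1728).neg).mul
    (hasPS_local τ₀ mdifferentiable_discriminant)
  rw [← sub_eq_add_neg] at h1
  have h2 := (hasPS_local τ₀ mdifferentiable_E₆).pow 2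
  exact (h1.congr fun τ => by rw [← sub_eq_add_neg]; exact jf_sub_mul_discriminant τ).unique (eventually_mem_range_wc τ₀) h2

theorem exists_local_derivative (τ₀ : ℍ) : ∃ c : ℂ, c ≠ 0 ∧
    PowerSeries.derivative (R := ℂ) (localPS τ₀ jf) * localPS τ₀ (dwc τ₀) *
      localPS τ₀ discriminant = PowerSeries.C c * (localPS τ₀ E₄ ^ 2 * localPS τ₀ E₆) := by
  obtain ⟨c, hc, h⟩ := exists_normalizedDeriv_jf
  refine ⟨c, hc, ?_⟩
  have h1 := (hasPS_normalizedDeriv τ₀ mdifferentiable_jf).mul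
    (hasPS_local τ₀ mdifferentiable_discriminant)
  have h2 := (HasPS.C (wc τ₀) c).mul (((hasPS_local τ₀ mdifferentiable_E₄).pow 2).mul
    (hasPS_local τ₀ mdifferentiable_E₆))
  exact (h1.congr fun τ => h τ).unique (eventually_mem_range_wc τ₀) h2

theorem order_derivative (τ₀ : ℍ) :
    (PowerSeries.derivative (R := ℂ) (localPS τ₀ jf)).order =
      2 • (localPS τ₀ E₄).order + (localPS τ₀ E₆).order := by
  obtain ⟨c, hc, h⟩ := exists_local_derivative τ₀
  have h1 := congrArg PowerSeries.order h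
  simp only [PowerSeries.order_mul, PowerSeries.order_pow] at h1
  rw [order_local_eq_zero mdifferentiable_discriminant (discriminant_ne_zero τ₀),
    order_eq_zero_of_coeff (localPS_dwc_coeff_zero τ₀),
    order_eq_zero_of_coeff (P := PowerSeries.C c) (by simpa using hc)] at h1
  simpa using h1

theorem order_jf (τ₀ : ℍ) : (localPS τ₀ jf).order = 3 • (localPS τ₀ E₄).order := by
  have h1 := congrArg PowerSeries.order (local_jf_mul τ₀)
  rw [PowerSeries.order_mul, PowerSeries.order_pow,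
    order_local_eq_zero mdifferentiable_discriminant (discriminant_ne_zero τ₀), add_zero] at h1
  exact h1

theorem order_jf_sub (τ₀ : ℍ) :
    (localPS τ₀ jf - PowerSeries.C 1728).order = 2 • (localPS τ₀ E₆).order := by
  have h1 := congrArg PowerSeries.order (local_jf_sub_mul τ₀)
  rw [PowerSeries.order_mul, PowerSeries.order_pow,
    order_local_eq_zero mdifferentiable_discriminant (discriminant_ne_zero τ₀), add_zero] at h1
  exact h1

theorem derivative_local_jf_ne_zero (τ₀ : ℍ) :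
    PowerSeries.derivative (R := ℂ) (localPS τ₀ jf) ≠ 0 := by
  intro h0
  have h6 := eq_const_of_derivative_eq_zero (hasPS_local τ₀ mdifferentiable_jf) h0
  obtain ⟨τ, hτ⟩ := jf_ne_const ((localPS τ₀ jf).coeff 0)
  exact hτ (h6 τ)

/-- order of `j - j(τ₀)` in terms of the orders of `E₄`, `E₆`. -/
theorem order_local_sub (τ₀ : ℍ) :
    2 • (localPS τ₀ E₄).order + (localPS τ₀ E₆).order + 1 =
      (localPS τ₀ jf - PowerSeries.C (jf τ₀)).order := by
  have hd : PowerSeries.derivative (R := ℂ) (localPS τ₀ jf - PowerSeries.C (jf τ₀)) =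
      PowerSeries.derivative (R := ℂ) (localPS τ₀ jf) := by
    rw [map_sub]
    simp
  rw [← order_derivative, ← hd, order_derivative_add_one]
  · rw [map_sub, (hasPS_local τ₀ mdifferentiable_jf).coeff_zero (wc_self τ₀)]
    simp
  · intro h0
    apply derivative_local_jf_ne_zero τ₀
    rw [← hd, h0, map_zero]

theorem E₄_eq_zero_iff (τ₀ : ℍ) : E₄ τ₀ = 0 ↔ jf τ₀ = 0 := by
  have h1 := jf_mul_discriminant τ₀
  constructor
  · intro h
    rw [h, zero_pow (by norm_num)] at h1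
    exact (mul_eq_zero.mp h1).resolve_right (discriminant_ne_zero τ₀)
  · intro h
    rw [h, zero_mul] at h1
    exact pow_eq_zero_iff (by norm_num) |>.mp h1.symm

theorem E₆_eq_zero_iff (τ₀ : ℍ) : E₆ τ₀ = 0 ↔ jf τ₀ = 1728 := by
  have h1 := jf_sub_mul_discriminant τ₀
  constructor
  · intro h
    rw [h, zero_pow (by norm_num)] at h1
    exact sub_eq_zero.mp ((mul_eq_zero.mp h1).resolve_right (discriminant_ne_zero τ₀))
  · intro h
    rw [h, sub_self, zero_mul] at h1
    exact pow_eq_zero_iff (by norm_num) |>.mp h1.symm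

/-- At a generic point `j - j(τ₀)` vanishes to order one. -/
theorem order_of_generic {τ₀ : ℍ} (h0 : jf τ₀ ≠ 0) (h1 : jf τ₀ ≠ 1728) :
    (localPS τ₀ jf - PowerSeries.C (jf τ₀)).order = 1 := by
  rw [← order_local_sub, order_local_eq_zero mdifferentiable_E₄ (by rwa [ne_eq, E₄_eq_zero_iff]),
    order_local_eq_zero mdifferentiable_E₆ (by rwa [ne_eq, E₆_eq_zero_iff])]
  simp

/-- At a point with `j = 1728`, `j - 1728` vanishes to order two. -/
theorem order_of_eq_1728 {τ₀ : ℍ} (h1 : jf τ₀ = 1728) :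
    (localPS τ₀ jf - PowerSeries.C 1728).order = 2 := by
  have h2 := order_local_sub τ₀
  rw [h1, order_jf_sub, order_local_eq_zero mdifferentiable_E₄
    (by rw [ne_eq, E₄_eq_zero_iff, h1]; norm_num)] at h2
  have h3 : (localPS τ₀ E₆).order ≠ ⊤ := by
    intro h
    rw [PowerSeries.order_eq_top] at h
    have := local_jf_sub_mul τ₀
    rw [h, zero_pow (by norm_num)] at this
    rcases mul_eq_zero.mp this with h5 | h5
    · apply derivative_local_jf_ne_zero τ₀
      rw [sub_eq_zero.mp h5]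
      simp
    · have h6 := order_local_eq_zero (τ₀ := τ₀) mdifferentiable_discriminant
        (discriminant_ne_zero τ₀)
      rw [h5] at h6
      simp at h6
  rw [order_jf_sub]
  obtain ⟨n, hn⟩ := ENat.ne_top_iff_exists.mp h3
  rw [← hn] at h2 ⊢
  simp only [smul_zero, zero_add] at h2
  have h4 : n + 1 = 2 * n := by
    rw [nsmul_eq_mul] at h2
    exact_mod_cast h2
  have h5 : n = 1 := by omega
  subst h5
  norm_num

/-- At a point with `j = 0`, `j` vanishes to order three. -/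
theorem order_of_eq_zero {τ₀ : ℍ} (h1 : jf τ₀ = 0) : (localPS τ₀ jf).order = 3 := by
  have h2 := order_local_sub τ₀
  rw [h1, map_zero, sub_zero, order_jf, order_local_eq_zero mdifferentiable_E₆
    (by rw [ne_eq, E₆_eq_zero_iff, h1]; norm_num)] at h2
  have h3 : (localPS τ₀ E₄).order ≠ ⊤ := by
    intro h
    rw [PowerSeries.order_eq_top] at h
    have := local_jf_mul τ₀
    rw [h, zero_pow (by norm_num)] at this
    rcases mul_eq_zero.mp this with h5 | h5
    · apply derivative_local_jf_ne_zero τ₀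
      rw [h5]
      simp
    · have h6 := order_local_eq_zero (τ₀ := τ₀) mdifferentiable_discriminant
        (discriminant_ne_zero τ₀)
      rw [h5] at h6
      simp at h6
  rw [order_jf]
  obtain ⟨n, hn⟩ := ENat.ne_top_iff_exists.mp h3
  rw [← hn] at h2 ⊢
  simp only [add_zero] at h2
  have h4 : 2 * n + 1 = 3 * n := by
    rw [nsmul_eq_mul, nsmul_eq_mul] at h2
    exact_mod_cast h2
  have h5 : n = 1 := by omega
  subst h5
  norm_num

theorem S_smul_I : ModularGroup.S • UpperHalfPlane.I = UpperHalfPlane.I := by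
  apply UpperHalfPlane.ext
  rw [modular_S_smul]
  simp

theorem jf_I : jf UpperHalfPlane.I = 1728 := by
  rw [← E₆_eq_zero_iff]
  have h := E_smul E₆ ModularGroup.S UpperHalfPlane.I
  rw [S_smul_I, ModularGroup.denom_S] at h
  have h2 : ((UpperHalfPlane.I : ℍ) : ℂ) ^ (((6 : ℕ) : ℤ)) = -1 := by
    have : ((UpperHalfPlane.I : ℍ) : ℂ) = Complex.I := rfl
    rw [this, zpow_natCast, show (6 : ℕ) = 2 * 3 from rfl, pow_mul, Complex.I_sq]
    norm_num
  rw [h2] at h
  have h3 : (2 : ℂ) * E₆ UpperHalfPlane.I = 0 := by linear_combination h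
  exact (mul_eq_zero.mp h3).resolve_left two_ne_zero

theorem order_I : jf UpperHalfPlane.I = 1728 ∧
    (localPS UpperHalfPlane.I jf - PowerSeries.C 1728).order = 2 ∧
    ModularGroup.S • UpperHalfPlane.I = UpperHalfPlane.I :=
  ⟨jf_I, order_of_eq_1728 jf_I, S_smul_I⟩

/-- The point `ρ = (-1 + √3 i) / 2`. -/
def rho : ℍ := ⟨-1 / 2 + (Real.sqrt 3 / 2 : ℝ) * Complex.I, by
  simp only [Complex.add_im, Complex.mul_im, Complex.ofReal_re, Complex.I_im, Complex.ofReal_im,
    Complex.I_re, mul_one, mul_zero, add_zero]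
  have : (-1 / 2 : ℂ).im = 0 := by norm_num
  rw [this]
  positivity⟩

theorem coe_rho : (rho : ℂ) = -1 / 2 + (Real.sqrt 3 / 2 : ℝ) * Complex.I := rfl

theorem rho_sq : (rho : ℂ) ^ 2 + rho + 1 = 0 := by
  rw [coe_rho]
  have h3 : ((Real.sqrt 3 : ℝ) : ℂ) ^ 2 = 3 := by
    rw [← Complex.ofReal_pow, Real.sq_sqrt (by norm_num)]
    norm_num
  push_cast
  linear_combination (1 / 4 * Complex.I ^ 2) * h3 + 3 / 4 * Complex.I_sq

theorem ST_smul_rho : (ModularGroup.S * ModularGroup.T) • rho = rho := by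
  rw [mul_smul, modular_T_smul, modular_S_smul]
  apply UpperHalfPlane.ext
  have h := rho_sq
  show (-(((1 : ℝ) +ᵥ rho : ℍ) : ℂ))⁻¹ = rho
  rw [coe_vadd, inv_eq_iff_eq_inv, ← mul_eq_one_iff_eq_inv₀ rho.ne_zero]
  push_cast
  linear_combination (-1 : ℂ) * h

theorem jf_rho : jf rho = 0 := by
  rw [← E₄_eq_zero_iff]
  have h := E_smul E₄ (ModularGroup.S * ModularGroup.T) rho
  rw [ST_smul_rho] at h
  have hd : denom (ModularGroup.S * ModularGroup.T : SL(2, ℤ)) (rho : ℂ) = (rho : ℂ) + 1 := by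
    rw [ModularGroup.denom_apply, Matrix.SpecialLinearGroup.coe_mul]
    simp [ModularGroup.S, ModularGroup.T, Matrix.mul_apply, Fin.sum_univ_two]
  rw [hd, zpow_natCast] at h
  have h1 := rho_sq
  have h2 : ((rho : ℂ) + 1) ^ 4 = rho ^ 2 * rho ^ 6 := by
    have : (rho : ℂ) + 1 = - rho ^ 2 := by linear_combination h1
    rw [this]
    ring
  have h3 : (rho : ℂ) ^ 3 = 1 := by linear_combination ((rho : ℂ) - 1) * h1
  have h4 : (rho : ℂ) ^ 6 = 1 := by
    rw [show (6 : ℕ) = 3 * 2 from rfl, pow_mul, h3, one_pow]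
  rw [h2, h4, mul_one] at h
  have h5 : ((rho : ℂ) ^ 2 - 1) * E₄ rho = 0 := by linear_combination -h
  refine (mul_eq_zero.mp h5).resolve_left fun h6 => ?_
  have h7 : (rho : ℂ) = -2 := by linear_combination h1 - h6
  have h8 := rho.im_pos
  rw [← coe_im, h7] at h8
  norm_num at h8

theorem order_rho : jf rho = 0 ∧ (localPS rho jf).order = 3 ∧
    (ModularGroup.S * ModularGroup.T) • rho = rho :=
  ⟨jf_rho, order_of_eq_zero jf_rho, ST_smul_rho⟩

/-- The stabiliser of `τ₀` acts on the disc coordinate through constants. -/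
theorem exists_wc_smul {τ₀ : ℍ} {γ : SL(2, ℤ)} (h : γ • τ₀ = τ₀) :
    ∃ u : ℂˣ, ∀ τ, wc τ₀ (γ • τ) = u * wc τ₀ τ := by
  have hd0 : denom γ (τ₀ : ℂ) ≠ 0 := denom_ne_zero _ τ₀
  have hdc : conj (denom γ (τ₀ : ℂ)) ≠ 0 := by
    rwa [ne_eq, map_eq_zero]
  refine ⟨Units.mk0 (conj (denom γ (τ₀ : ℂ)) / denom γ (τ₀ : ℂ)) (div_ne_zero hdc hd0),
    fun τ => ?_⟩
  rw [Units.val_mk0]
  have hdet : ((γ 0 0 : ℤ) : ℂ) * (γ 1 1 : ℤ) - (γ 0 1 : ℤ) * (γ 1 0 : ℤ) = 1 := by
    have := γ.det_coe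
    rw [Matrix.det_fin_two] at this
    exact_mod_cast congrArg (Int.cast : ℤ → ℂ) this
  have hτ : ((γ • τ : ℍ) : ℂ) = ((γ 0 0 : ℤ) * (τ : ℂ) + (γ 0 1 : ℤ)) / denom γ (τ : ℂ) := by
    rw [UpperHalfPlane.coe_specialLinearGroup_apply, ModularGroup.denom_apply]
    simp
  have hτ₀ : ((τ₀ : ℍ) : ℂ) = ((γ 0 0 : ℤ) * (τ₀ : ℂ) + (γ 0 1 : ℤ)) / denom γ (τ₀ : ℂ) := by
    conv_lhs => rw [← h, UpperHalfPlane.coe_specialLinearGroup_apply]
    rw [ModularGroup.denom_apply]
    simp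
  have hτ₀c : conj ((τ₀ : ℍ) : ℂ) =
      ((γ 0 0 : ℤ) * conj (τ₀ : ℂ) + (γ 0 1 : ℤ)) / conj (denom γ (τ₀ : ℂ)) := by
    conv_lhs => rw [hτ₀]
    simp [map_div₀]
  have hd : denom γ (τ : ℂ) ≠ 0 := denom_ne_zero _ τ
  have h1 : ((γ • τ : ℍ) : ℂ) - τ₀ = ((τ : ℂ) - τ₀) / (denom γ (τ : ℂ) * denom γ (τ₀ : ℂ)) := by
    rw [hτ]
    conv_lhs => rw [hτ₀]
    rw [div_sub_div _ _ hd hd0]
    congr 1
    rw [ModularGroup.denom_apply, ModularGroup.denom_apply]
    linear_combination ((τ : ℂ) - τ₀) * hdet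
  have h2 : ((γ • τ : ℍ) : ℂ) - conj (τ₀ : ℂ) =
      ((τ : ℂ) - conj (τ₀ : ℂ)) / (denom γ (τ : ℂ) * conj (denom γ (τ₀ : ℂ))) := by
    rw [hτ]
    conv_lhs => rw [hτ₀c]
    rw [div_sub_div _ _ hd hdc]
    congr 1
    rw [ModularGroup.denom_apply, ModularGroup.denom_apply]
    simp only [map_add, map_mul, map_intCast]
    linear_combination ((τ : ℂ) - conj (τ₀ : ℂ)) * hdet
  have h3 := sub_conj_ne_zero τ₀ τ
  rw [wc, wc, h1, h2]
  field_simp

end FermatJ
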