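import Mathlib
import Fermat.Agent.J.LevelOne

/-!
# The functions `τ ↦ j((a τ + b) / d)` and the action of `SL₂(ℤ)`
-/

set_option autoImplicit false

noncomputable section

open Filter Topology UpperHalfPlane ModularForm MatrixGroups CongruenceSubgroup
open scoped Manifold

namespace FermatJ

/-- An integer matrix with nonzero determinant as an element of `GL₂(ℝ)`. -/
def igl (A : Matrix (Fin 2) (Fin 2) ℤ) (h : A.det ≠ 0) : GL (Fin 2) ℝ :=
  Matrix.GeneralLinearGroup.mkOfDetNeZero (A.map (Int.castRingHom ℝ)) (by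
    rw [← RingHom.mapMatrix_apply, ← RingHom.map_det]
    simpa using h)

theorem igl_val (A : Matrix (Fin 2) (Fin 2) ℤ) (h : A.det ≠ 0) :
    (igl A h : Matrix (Fin 2) (Fin 2) ℝ) = A.map (Int.castRingHom ℝ) := rfl

theorem igl_apply (A : Matrix (Fin 2) (Fin 2) ℤ) (h : A.det ≠ 0) (i j : Fin 2) :
    (igl A h : Matrix (Fin 2) (Fin 2) ℝ) i j = A i j := rfl

theorem igl_congr {A B : Matrix (Fin 2) (Fin 2) ℤ} (hAB : A = B) (h : A.det ≠ 0) :
    igl A h = igl B (hAB ▸ h) := by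
  subst hAB; rfl

theorem sl_eq_igl (γ : SL(2, ℤ)) :
    (γ : GL (Fin 2) ℝ) = igl (γ : Matrix (Fin 2) (Fin 2) ℤ) (by rw [γ.2]; exact one_ne_zero) := by
  ext i j
  rw [igl_apply]
  simp

theorem igl_mul (A B : Matrix (Fin 2) (Fin 2) ℤ) (hA : A.det ≠ 0) (hB : B.det ≠ 0) :
    igl A hA * igl B hB = igl (A * B) (by rw [Matrix.det_mul]; exact mul_ne_zero hA hB) := by
  apply Units.ext
  rw [Units.val_mul, igl_val, igl_val, igl_val, Matrix.map_mul]

/-- The upper triangular matrix `(a, b; 0, d)`. -/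
def triM (a : ℕ) (b : ℤ) (d : ℕ) : Matrix (Fin 2) (Fin 2) ℤ := !![(a : ℤ), b; 0, (d : ℤ)]

theorem det_triM (a : ℕ) (b : ℤ) (d : ℕ) : (triM a b d).det = a * d := by
  simp [triM, Matrix.det_fin_two]

theorem det_triM_ne_zero (a : ℕ) (b : ℤ) (d : ℕ) [NeZero a] [NeZero d] : (triM a b d).det ≠ 0 := by
  rw [det_triM]
  exact mul_ne_zero (by exact_mod_cast NeZero.ne a) (by exact_mod_cast NeZero.ne d)

/-- The point `(a τ + b) / d` of the upper half plane. -/
def tri (a : ℕ) (b : ℤ) (d : ℕ) [NeZero a] [NeZero d] (τ : ℍ) : ℍ :=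
  igl (triM a b d) (det_triM_ne_zero a b d) • τ

theorem coe_tri (a : ℕ) (b : ℤ) (d : ℕ) [NeZero a] [NeZero d] (τ : ℍ) :
    (tri a b d τ : ℂ) = ((a : ℂ) * τ + b) / d := by
  have ha : (0 : ℝ) < a := by exact_mod_cast Nat.pos_of_ne_zero (NeZero.ne a)
  have hd : (0 : ℝ) < d := by exact_mod_cast Nat.pos_of_ne_zero (NeZero.ne d)
  have hdet : 0 < (igl (triM a b d) (det_triM_ne_zero a b d)).det.val := by
    rw [Matrix.GeneralLinearGroup.val_det_apply, Matrix.det_fin_two]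
    simp only [igl_apply, triM]
    simp
    positivity
  rw [tri, UpperHalfPlane.coe_smul_of_det_pos hdet, UpperHalfPlane.num, UpperHalfPlane.denom]
  simp only [igl_apply, triM]
  simp

/-- `τ ↦ j((a τ + b) / d)` -/
def jt (a : ℕ) (b : ℤ) (d : ℕ) [NeZero a] [NeZero d] (τ : ℍ) : ℂ := jf (tri a b d τ)

theorem mdifferentiable_jt (a : ℕ) (b : ℤ) (d : ℕ) [NeZero a] [NeZero d] : MDiff (jt a b d) := by
  have h1 := mdifferentiable_jf
  rw [UpperHalfPlane.mdifferentiable_iff] at *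
  have ha : (0 : ℝ) < a := by exact_mod_cast Nat.pos_of_ne_zero (NeZero.ne a)
  have hd : (0 : ℝ) < d := by exact_mod_cast Nat.pos_of_ne_zero (NeZero.ne d)
  have h2 : Set.MapsTo (fun z : ℂ => ((a : ℂ) * z + b) / d) upperHalfPlaneSet
      upperHalfPlaneSet := by
    intro z hz
    have hz' : 0 < z.im := hz
    show 0 < (((a : ℂ) * z + b) / d).im
    have : ((a : ℂ) * z + b) / d = (((a : ℝ) / (d : ℝ) : ℝ) : ℂ) * z + (((b : ℝ) / (d : ℝ) : ℝ) : ℂ) := by
      push_cast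
      ring
    rw [this, Complex.add_im, Complex.im_ofReal_mul, Complex.ofReal_im, add_zero]
    positivity
  refine (h1.comp (f := fun z : ℂ => ((a : ℂ) * z + b) / d) ?_ h2).congr fun z hz => ?_
  · fun_prop
  · simp only [Function.comp_apply, jt]
    congr 1
    ext
    rw [coe_tri, ofComplex_apply_of_im_pos (h2 hz), ofComplex_apply_of_im_pos hz]

/-- Reduction of an integral matrix of positive determinant to upper triangular form. -/
theorem exists_reduce (A : Matrix (Fin 2) (Fin 2) ℤ) (M : ℕ) [NeZero M] (hA : A.det = M) :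
    ∃ (δ : SL(2, ℤ)) (a d : ℕ) (_ : NeZero a) (_ : NeZero d) (b : ℤ), a * d = M ∧ 0 ≤ b ∧ b < d ∧
      A = δ * triM a b d := by
  have hM : (0 : ℤ) < M := by exact_mod_cast Nat.pos_of_ne_zero (NeZero.ne M)
  have hdet : A 0 0 * A 1 1 - A 0 1 * A 1 0 = M := by
    rw [← hA, Matrix.det_fin_two]
  set g : ℕ := Int.gcd (A 0 0) (A 1 0) with hg
  have hg0 : g ≠ 0 := by
    intro h0
    rw [hg, Int.gcd_eq_zero_iff] at h0
    rw [h0.1, h0.2] at hdet
    simp at hdet
    omega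
  obtain ⟨u, hu⟩ : (g : ℤ) ∣ A 0 0 := Int.gcd_dvd_left _ _
  obtain ⟨v, hv⟩ : (g : ℤ) ∣ A 1 0 := Int.gcd_dvd_right _ _
  have hbez := Int.gcd_eq_gcd_ab (A 0 0) (A 1 0)
  set x := Int.gcdA (A 0 0) (A 1 0) with hx
  set y := Int.gcdB (A 0 0) (A 1 0) with hy
  rw [← hg] at hbez
  have hgZ : (g : ℤ) ≠ 0 := by exact_mod_cast hg0
  have huv : u * x + v * y = 1 := by
    have : (g : ℤ) * (u * x + v * y) = g * 1 := by
      rw [mul_one, mul_add]
      conv_rhs => rw [hbez, hu, hv]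
      ring
    exact mul_left_cancel₀ hgZ this
  -- `δ₀ = (u, -y; v, x)`
  set d' : ℤ := u * A 1 1 - v * A 0 1 with hd'
  set b' : ℤ := x * A 0 1 + y * A 1 1 with hb'
  have hgd : (g : ℤ) * d' = M := by
    rw [← hdet, hu, hv, hd']
    ring
  have hd'pos : 0 < d' := by
    have h1 : 0 < (g : ℤ) * d' := by rw [hgd]; exact hM
    have h2 : (0 : ℤ) < g := by positivity
    exact (mul_pos_iff_of_pos_left h2).mp h1
  obtain ⟨d, hd⟩ := Int.eq_ofNat_of_zero_le hd'pos.le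
  have hd0 : d ≠ 0 := by
    rintro rfl
    rw [hd] at hd'pos
    simp at hd'pos
  -- reduce `b'` modulo `d`
  set t : ℤ := b' / d with ht
  set b : ℤ := b' % d with hb
  have hbt : b' = d * t + b := (Int.mul_ediv_add_emod b' d).symm
  have hdZ : (0 : ℤ) < d := by positivity
  refine ⟨⟨!![u, u * t - y; v, v * t + x], ?_⟩, g, d, ⟨hg0⟩, ⟨hd0⟩, b, ?_,
    Int.emod_nonneg _ hdZ.ne', Int.emod_lt_of_pos _ hdZ, ?_⟩
  · rw [Matrix.det_fin_two_of, ← huv]
    ring
  · have : ((g * d : ℕ) : ℤ) = (M : ℕ) := by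
      push_cast
      rw [← hgd, hd]
    exact_mod_cast this
  · have h01 : A 0 1 = u * b' - y * d' := by
      rw [hb', hd']
      linear_combination - A 0 1 * huv
    have h11 : A 1 1 = v * b' + x * d' := by
      rw [hb', hd']
      linear_combination - A 1 1 * huv
    ext i j
    fin_cases i <;> fin_cases j
    · simp [triM, Matrix.mul_apply, Fin.sum_univ_two]
      rw [hu]; ring
    · simp [triM, Matrix.mul_apply, Fin.sum_univ_two]
      rw [h01, hd, hbt]
      ring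
    · simp [triM, Matrix.mul_apply, Fin.sum_univ_two]
      rw [hv]; ring
    · simp [triM, Matrix.mul_apply, Fin.sum_univ_two]
      rw [h11, hd, hbt]
      ring

theorem tri_smul_of_eq {a d a' d' : ℕ} [NeZero a] [NeZero d] [NeZero a'] [NeZero d'] {b b' : ℤ}
    {γ δ : SL(2, ℤ)} (h : triM a b d * (γ : Matrix (Fin 2) (Fin 2) ℤ) = δ * triM a' b' d')
    (τ : ℍ) : tri a b d (γ • τ) = δ • tri a' b' d' τ := by
  rw [tri, tri, ModularGroup.sl_moeb, ModularGroup.sl_moeb, ← mul_smul, ← mul_smul, sl_eq_igl,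
    sl_eq_igl, igl_mul, igl_mul, igl_congr h]

theorem jt_smul_of_eq {a d a' d' : ℕ} [NeZero a] [NeZero d] [NeZero a'] [NeZero d'] {b b' : ℤ}
    {γ δ : SL(2, ℤ)} (h : triM a b d * (γ : Matrix (Fin 2) (Fin 2) ℤ) = δ * triM a' b' d')
    (τ : ℍ) : jt a b d (γ • τ) = jt a' b' d' τ := by
  rw [jt, jt, tri_smul_of_eq h, jf_smul]

/-- `SL₂(ℤ)` permutes the functions `j((a τ + b) / d)`, `a d = M`, `0 ≤ b < d`. -/
theorem exists_jt_smul (a : ℕ) (b : ℤ) (d : ℕ) [NeZero a] [NeZero d] (γ : SL(2, ℤ)) :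
    ∃ (δ : SL(2, ℤ)) (a' d' : ℕ) (_ : NeZero a') (_ : NeZero d') (b' : ℤ), a' * d' = a * d ∧
      0 ≤ b' ∧ b' < d' ∧ triM a b d * (γ : Matrix (Fin 2) (Fin 2) ℤ) = δ * triM a' b' d' ∧
      ∀ τ, jt a b d (γ • τ) = jt a' b' d' τ := by
  have hNZ : NeZero (a * d) := ⟨mul_ne_zero (NeZero.ne a) (NeZero.ne d)⟩
  obtain ⟨δ, a', d', ha', hd', b', h1, h2, h3, h4⟩ :=
    exists_reduce (triM a b d * (γ : Matrix (Fin 2) (Fin 2) ℤ)) (a * d)
      (by rw [Matrix.det_mul, det_triM, γ.2]; push_cast; ring)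
  exact ⟨δ, a', d', ha', hd', b', h1, h2, h3, h4, jt_smul_of_eq h4⟩

/-- The set of functions `j((a τ + b) / d)`, `a d = M`, `0 ≤ b < d`. -/
def jset (M : ℕ) : Set (ℍ → ℂ) :=
  {f | ∃ (a d : ℕ) (_ : NeZero a) (_ : NeZero d) (b : ℤ), a * d = M ∧ 0 ≤ b ∧ b < d ∧
    f = jt a b d}

theorem finite_jset (M : ℕ) [NeZero M] : (jset M).Finite := by
  classical
  have hfin : (Set.Icc 0 M ×ˢ Set.Icc 0 M ×ˢ Set.Icc (0 : ℤ) M : Set (ℕ × ℕ × ℤ)).Finite :=
    (Set.finite_Icc _ _).prod ((Set.finite_Icc _ _).prod (Set.finite_Icc _ _))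
  refine (hfin.image (fun p : ℕ × ℕ × ℤ => if h : NeZero p.1 ∧ NeZero p.2.1 then
    (haveI := h.1; haveI := h.2; jt p.1 p.2.2 p.2.1) else (0 : ℍ → ℂ))).subset ?_
  rintro f ⟨a, d, ha, hd, b, hM, hb0, hbd, rfl⟩
  have hM0 : 0 < M := Nat.pos_of_ne_zero (NeZero.ne M)
  have ha1 : a ≤ M := Nat.le_of_dvd hM0 (Dvd.intro d hM)
  have hd1 : d ≤ M := Nat.le_of_dvd hM0 (Dvd.intro_left a hM)
  refine ⟨(a, d, b), ?_, ?_⟩
  · simp only [Set.mem_prod, Set.mem_Icc]
    have : (d : ℤ) ≤ M := by exact_mod_cast hd1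
    refine ⟨⟨Nat.zero_le _, ha1⟩, ⟨Nat.zero_le _, hd1⟩, hb0, by omega⟩
  · simp only
    rw [dif_pos ⟨ha, hd⟩]

theorem smul_mem_jset {M : ℕ} {f : ℍ → ℂ} (hf : f ∈ jset M) (γ : SL(2, ℤ)) :
    (fun τ => f (γ • τ)) ∈ jset M := by
  obtain ⟨a, d, ha, hd, b, hM, -, -, rfl⟩ := hf
  obtain ⟨-, a', d', ha', hd', b', h1, h2, h3, -, h5⟩ := exists_jt_smul a b d γ
  exact ⟨a', d', ha', hd', b', h1.trans hM, h2, h3, funext h5⟩

theorem mdifferentiable_of_mem_jset {M : ℕ} {f : ℍ → ℂ} (hf : f ∈ jset M) : MDiff f := by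
  obtain ⟨a, d, ha, hd, b, -, -, -, rfl⟩ := hf
  exact mdifferentiable_jt a b d

theorem jt_one : jt 1 0 1 = jf := by
  funext τ
  rw [jt]
  congr 1
  ext
  rw [coe_tri]
  simp

theorem jf_mem_jset : jf ∈ jset 1 :=
  ⟨1, 1, inferInstance, inferInstance, 0, rfl, le_rfl, by norm_num, jt_one.symm⟩

theorem jt_mem_jset (d : ℕ) [NeZero d] : jt d 0 1 ∈ jset d :=
  ⟨d, 1, inferInstance, inferInstance, 0, mul_one d, le_rfl, by norm_num, rfl⟩

/-! ### The stabiliser of `j(N τ)` -/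

theorem norm_qc_tri (a : ℕ) (b : ℤ) (d : ℕ) [NeZero a] [NeZero d] (τ : ℍ) :
    ‖qc 1 (tri a b d τ)‖ = Real.exp (-2 * Real.pi * ((a : ℝ) / d) * τ.im) := by
  have hd : (d : ℂ) ≠ 0 := by exact_mod_cast NeZero.ne d
  rw [qc, Function.Periodic.qParam, Complex.norm_exp, coe_tri]
  congr 1
  have h1 : 2 * (Real.pi : ℂ) * Complex.I * (((a : ℂ) * τ + b) / d) / ((1 : ℕ) : ℝ)
      = ((2 * Real.pi * ((a : ℝ) / d) : ℝ) : ℂ) * (Complex.I * τ)
        + ((2 * Real.pi * ((b : ℝ) / d) : ℝ) : ℂ) * Complex.I := by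
    push_cast
    field_simp
  rw [h1, Complex.add_re, Complex.re_ofReal_mul, Complex.re_ofReal_mul]
  simp

theorem tendsto_tri (a : ℕ) (b : ℤ) (d : ℕ) [NeZero a] [NeZero d] :
    Tendsto (tri a b d) atImInfty atImInfty := by
  have ha : (0 : ℝ) < a := by exact_mod_cast Nat.pos_of_ne_zero (NeZero.ne a)
  have hd : (0 : ℝ) < d := by exact_mod_cast Nat.pos_of_ne_zero (NeZero.ne d)
  have him : ∀ τ : ℍ, (tri a b d τ).im = (a / d : ℝ) * τ.im := by
    intro τ
    rw [← coe_im, coe_tri]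
    have : ((a : ℂ) * τ + b) / d = (((a : ℝ) / (d : ℝ) : ℝ) : ℂ) * τ + (((b : ℝ) / (d : ℝ) : ℝ) : ℂ) := by
      push_cast
      ring
    rw [this, Complex.add_im, Complex.im_ofReal_mul, Complex.ofReal_im, add_zero]
    rfl
  rw [atImInfty, tendsto_comap_iff]
  have : (UpperHalfPlane.im ∘ tri a b d) = fun τ : ℍ => (a / d : ℝ) * τ.im := funext him
  rw [this]
  exact Tendsto.const_mul_atTop (by positivity) tendsto_comap

theorem tendsto_qc_mul_jt (a : ℕ) (b : ℤ) (d : ℕ) [NeZero a] [NeZero d] :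
    Tendsto (fun τ => qc 1 (tri a b d τ) * jt a b d τ) atImInfty (𝓝 1) :=
  tendsto_qc_mul_jf.comp (tendsto_tri a b d)

/-- The slope `a / d` is determined by the function `j((a τ + b) / d)`. -/
theorem slope_eq {a d a' d' : ℕ} [NeZero a] [NeZero d] [NeZero a'] [NeZero d'] {b b' : ℤ}
    (h : ∀ τ, jt a b d τ = jt a' b' d' τ) : a * d' = a' * d := by
  have hd : (0 : ℝ) < d := by exact_mod_cast Nat.pos_of_ne_zero (NeZero.ne d)
  have hd' : (0 : ℝ) < d' := by exact_mod_cast Nat.pos_of_ne_zero (NeZero.ne d')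
  have h1 := (tendsto_qc_mul_jt a b d).norm
  have h2 := (tendsto_qc_mul_jt a' b' d').norm
  have h3 : Tendsto (fun τ : ℍ => ‖qc 1 (tri a b d τ)‖ / ‖qc 1 (tri a' b' d' τ)‖) atImInfty
      (𝓝 1) := by
    have h4 := h1.div h2 (by simp)
    rw [norm_one, div_one] at h4
    refine h4.congr' ?_
    have h5 : ∀ᶠ τ in atImInfty, ‖qc 1 (tri a b d τ) * jt a b d τ‖ ≠ 0 := by
      refine h1.eventually_ne ?_
      rw [norm_one]
      exact one_ne_zero
    filter_upwards [h5] with τ hτ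
    simp only [Pi.div_apply]
    rw [norm_mul] at hτ
    rw [norm_mul, norm_mul, ← h τ]
    exact mul_div_mul_right _ _ (right_ne_zero_of_mul hτ)
  have h4 : Tendsto (fun y : ℝ => Real.exp ((-2 * Real.pi * ((a : ℝ) / d - (a' : ℝ) / d')) * y))
      atTop (𝓝 1) := by
    have h5 : Tendsto (fun y : ℝ => if hy : 0 < y then (⟨y * Complex.I, by simpa using hy⟩ : ℍ)
        else UpperHalfPlane.I) atTop atImInfty := by
      rw [atImInfty, tendsto_comap_iff]
      refine tendsto_id.congr' ?_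
      filter_upwards [eventually_gt_atTop 0] with y hy
      simp only [Function.comp_apply, dif_pos hy, id]
      rw [← coe_im]
      simp
    refine (h3.comp h5).congr' ?_
    filter_upwards [eventually_gt_atTop 0] with y hy
    simp only [Function.comp_apply, dif_pos hy]
    rw [norm_qc_tri, norm_qc_tri, ← Real.exp_sub]
    congr 1
    have : (⟨y * Complex.I, by simpa using hy⟩ : ℍ).im = y := by
      rw [← coe_im]
      simp
    rw [this]
    ring
  have h5 : (a : ℝ) / d = a' / d' := by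
    by_contra hne
    have hc : -2 * Real.pi * ((a : ℝ) / d - (a' : ℝ) / d') ≠ 0 :=
      mul_ne_zero (mul_ne_zero (by norm_num) Real.pi_ne_zero) (sub_ne_zero.mpr hne)
    rcases lt_or_gt_of_ne hc with hc | hc
    · have h6 : Tendsto (fun y : ℝ => Real.exp ((-2 * Real.pi * ((a : ℝ) / d - (a' : ℝ) / d')) * y))
          atTop (𝓝 0) :=
        Real.tendsto_exp_atBot.comp (tendsto_id.const_mul_atTop_of_neg hc)
      exact zero_ne_one (tendsto_nhds_unique h6 h4)
    · have h6 : Tendsto (fun y : ℝ => Real.exp ((-2 * Real.pi * ((a : ℝ) / d - (a' : ℝ) / d')) * y))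
          atTop atTop :=
        Real.tendsto_exp_atTop.comp (tendsto_id.const_mul_atTop hc)
      exact not_tendsto_nhds_of_tendsto_atTop h6 1 h4
  rw [div_eq_div_iff hd.ne' hd'.ne'] at h5
  exact_mod_cast h5

/-- `j(N γ τ) = j(N τ)` for all `τ` if and only if `γ ∈ Γ₀(N)`. -/
theorem jt_smul_eq_iff (N : ℕ) [NeZero N] (γ : SL(2, ℤ)) :
    (∀ τ, jt N 0 1 (γ • τ) = jt N 0 1 τ) ↔ γ ∈ Gamma0 N := by
  have hN : (N : ℤ) ≠ 0 := by exact_mod_cast NeZero.ne N
  constructor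
  · intro h
    obtain ⟨δ, a, d, ha, hd, b, h1, h2, h3, h4, h5⟩ := exists_jt_smul N 0 1 γ
    have h6 := slope_eq (fun τ => (h τ).symm.trans (h5 τ))
    rw [mul_one] at h1 h6
    -- `N * d = a`, `a * d = N`
    have h7 : d = 1 := by
      have : a * d * d = a := by rw [h1]; simpa using h6
      have ha0 : a ≠ 0 := NeZero.ne a
      have : a * (d * d) = a * 1 := by rw [← mul_assoc, this, mul_one]
      have := Nat.eq_of_mul_eq_mul_left (Nat.pos_of_ne_zero ha0) this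
      exact Nat.eq_one_of_mul_eq_one_right this
    subst h7
    rw [mul_one] at h1
    subst h1
    have h8 : b = 0 := by
      push_cast at h3
      omega
    subst h8
    have h9 := congrFun (congrFun h4 1) 0
    simp [triM, Matrix.mul_apply, Fin.sum_univ_two] at h9
    rw [Gamma0_mem]
    rw [h9]
    simp
  · intro h τ
    rw [Gamma0_mem, ZMod.intCast_zmod_eq_zero_iff_dvd] at h
    obtain ⟨c, hc⟩ := h
    have hdet := γ.2
    rw [Matrix.det_fin_two] at hdet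
    refine jt_smul_of_eq (γ := γ) (δ := ⟨!![γ 0 0, N * γ 0 1; c, γ 1 1], ?_⟩) ?_ τ
    · rw [Matrix.det_fin_two_of]
      rw [hc] at hdet
      linear_combination hdet
    · ext i j
      fin_cases i <;> fin_cases j
      · simp [triM, Matrix.mul_apply, Fin.sum_univ_two]
        ring
      · simp [triM, Matrix.mul_apply, Fin.sum_univ_two]
      · simp [triM, Matrix.mul_apply, Fin.sum_univ_two]
        rw [hc]; ring
      · simp [triM, Matrix.mul_apply, Fin.sum_univ_two]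

end FermatJ
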